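import Mathlib

/-!
# S55 / layer K (helper243): cochain-level toolkit for level-constant cohomology in all degrees

* `cls`, `cls_eq_zero_iff`, `exists_cls`, `map_cls`: classes of explicit inhomogeneous cocycles
  in Mathlib's `groupCohomology A n` (general degree);
* `IsInv U f`: the cochain `f` is invariant under right multiplication of all arguments by `U`;
  `IsInv.d`: the differential preserves invariance (normal `U` acting trivially);
* `exists_descent`, `cochainsMap_res_injective`: a cochain on `G₁` invariant under the kernel of a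
  surjection `π : G₁ → Γ` is inflated from a unique cochain on `Γ`.

Mathlib only.
-/

set_option autoImplicit false

open CategoryTheory groupCohomology

namespace Fermat.Agent.S55.K.H243

variable {k G : Type} [CommRing k] [Group G]

/-! ## Classes of explicit cocycles -/

lemma iCocycles_toCocycles (A : Rep.{0} k G) (n : ℕ) (b : (Fin n → G) → A) :
    (iCocycles A (n + 1)).hom (((inhomogeneousCochains A).toCycles n (n + 1)).hom b) =
      (inhomogeneousCochains.d A n).hom b := by
  have h2 := (inhomogeneousCochains A).toCycles_i n (n + 1)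
  rw [inhomogeneousCochains.d_def] at h2
  exact congrArg (fun f => f.hom b) h2

/-- A cocycle class vanishes iff the cocycle is a coboundary (general degree). -/
theorem pi_eq_zero_iff (A : Rep.{0} k G) (n : ℕ) (x : groupCohomology.cocycles A (n + 1)) :
    (groupCohomology.π A (n + 1)).hom x = 0 ↔
      ∃ b : (Fin n → G) → A,
        (inhomogeneousCochains.d A n).hom b = (iCocycles A (n + 1)).hom x := by
  have hprev : (ComplexShape.up ℕ).prev (n + 1) = n := by simp
  have hcok := (inhomogeneousCochains A).homologyIsCokernel n (n + 1) hprev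
  have hex : (ShortComplex.mk ((inhomogeneousCochains A).toCycles n (n + 1))
      ((inhomogeneousCochains A).homologyπ (n + 1))
      ((inhomogeneousCochains A).toCycles_comp_homologyπ n (n + 1))).Exact :=
    ShortComplex.exact_of_g_is_cokernel _ hcok
  rw [ShortComplex.moduleCat_exact_iff] at hex
  constructor
  · intro h
    obtain ⟨b, hb⟩ := hex x h
    refine ⟨b, ?_⟩
    rw [← iCocycles_toCocycles]
    exact congrArg (fun y => (iCocycles A (n + 1)).hom y) hb
  · rintro ⟨b, hb⟩
    have hx : ((inhomogeneousCochains A).toCycles n (n + 1)).hom b = x := by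
      have hinj : Function.Injective (iCocycles A (n + 1)).hom :=
        (ModuleCat.mono_iff_injective _).1 inferInstance
      apply hinj
      rw [← hb]
      exact iCocycles_toCocycles A n b
    rw [← hx]
    have h4 := (inhomogeneousCochains A).toCycles_comp_homologyπ n (n + 1)
    exact congrArg (fun f => f.hom b) h4

/-- The class of an explicit cocycle. -/
noncomputable def cls (A : Rep.{0} k G) {n : ℕ} (z : (Fin n → G) → A)
    (hz : (inhomogeneousCochains.d A n).hom z = 0) : groupCohomology A n :=
  (groupCohomology.π A n).hom (cocyclesMk z hz)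

theorem cls_eq_zero_iff (A : Rep.{0} k G) {n : ℕ} (z : (Fin (n + 1) → G) → A)
    (hz : (inhomogeneousCochains.d A (n + 1)).hom z = 0) :
    cls A z hz = 0 ↔ ∃ b : (Fin n → G) → A, (inhomogeneousCochains.d A n).hom b = z := by
  unfold cls
  rw [pi_eq_zero_iff]
  have : (iCocycles A (n + 1)).hom (cocyclesMk z hz) = z := iCocycles_mk z hz
  rw [this]

theorem exists_cls (A : Rep.{0} k G) {n : ℕ} (x : groupCohomology A n) :
    ∃ (z : (Fin n → G) → A) (hz : (inhomogeneousCochains.d A n).hom z = 0),
      cls A z hz = x := by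
  induction x using groupCohomology_induction_on with
  | h y =>
    have hd : (inhomogeneousCochains.d A n).hom ((iCocycles A n).hom y) = 0 := by
      have h := (inhomogeneousCochains A).iCycles_d n (n + 1)
      rw [inhomogeneousCochains.d_def] at h
      exact congrArg (fun f => f.hom y) h
    refine ⟨(iCocycles A n).hom y, hd, ?_⟩
    unfold cls
    congr 1
    have hinj : Function.Injective (iCocycles A n).hom :=
      (ModuleCat.mono_iff_injective _).1 inferInstance
    apply hinj
    exact iCocycles_mk _ hd

theorem map_cls {H : Type} [Group H] {A : Rep.{0} k H} {B : Rep.{0} k G} (f : G →* H)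
    (φ : Rep.res f A ⟶ B) {n : ℕ}
    (z : (Fin n → H) → A) (hz : (inhomogeneousCochains.d A n).hom z = 0)
    (hz' : (inhomogeneousCochains.d B n).hom (((cochainsMap f φ).f n).hom z) = 0) :
    (groupCohomology.map f φ n).hom (cls A z hz) =
      cls B (((cochainsMap f φ).f n).hom z) hz' := by
  unfold cls
  have h := groupCohomology.π_map f φ n
  have h2 := congrArg (fun g => g.hom (cocyclesMk z hz)) h
  simp only [ModuleCat.hom_comp, LinearMap.comp_apply] at h2
  rw [h2]
  congr 1
  have hinj : Function.Injective (iCocycles B n).hom :=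
    (ModuleCat.mono_iff_injective _).1 inferInstance
  apply hinj
  rw [iCocycles_mk]
  have h3 := HomologicalComplex.cyclesMap_i (cochainsMap f φ) n
  have h4 := congrArg (fun g => g.hom (cocyclesMk z hz)) h3
  simp only [ModuleCat.hom_comp, LinearMap.comp_apply] at h4
  rw [h4]
  congr 1
  exact iCocycles_mk z hz

/-- `d` commutes with `cochainsMap`. -/
theorem d_cochainsMap {H : Type} [Group H] {A : Rep.{0} k H} {B : Rep.{0} k G} (f : G →* H)
    (φ : Rep.res f A ⟶ B) (n : ℕ) (z : (Fin n → H) → A) :
    (inhomogeneousCochains.d B n).hom (((cochainsMap f φ).f n).hom z) =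
      ((cochainsMap f φ).f (n + 1)).hom ((inhomogeneousCochains.d A n).hom z) := by
  have h := (cochainsMap f φ).comm n (n + 1)
  rw [inhomogeneousCochains.d_def, inhomogeneousCochains.d_def] at h
  have h2 := congrArg (fun g => g.hom z) h
  simpa only [ModuleCat.hom_comp, LinearMap.comp_apply] using h2

/-! ## Invariant cochains -/

/-- `f` is invariant under right multiplication of all its arguments by elements of `U`. -/
def IsInv {X : Type*} (U : Subgroup G) {n : ℕ} (f : (Fin n → G) → X) : Prop :=
  ∀ g s : Fin n → G, (∀ i, s i ∈ U) → f (g * s) = f g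

/-- `U` acts trivially on `A`. -/
def TrivOn (A : Rep.{0} k G) (U : Subgroup G) : Prop := ∀ u ∈ U, ∀ a : A, A.ρ u a = a

lemma TrivOn.mono {A : Rep.{0} k G} {U V : Subgroup G} (h : V ≤ U) (hA : TrivOn A U) :
    TrivOn A V := fun u hu a => hA u (h hu) a

namespace IsInv

variable {X Y : Type*} {U V : Subgroup G} {n : ℕ}

lemma mono (h : V ≤ U) {f : (Fin n → G) → X} (hf : IsInv U f) : IsInv V f :=
  fun g s hs => hf g s fun i => h (hs i)

lemma comp {f : (Fin n → G) → X} (hf : IsInv U f) (φ : X → Y) : IsInv U (φ ∘ f) :=
  fun g s hs => by simp only [Function.comp_apply, hf g s hs]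

lemma add [Add X] {f f' : (Fin n → G) → X} (hf : IsInv U f) (hf' : IsInv U f') :
    IsInv U (f + f') :=
  fun g s hs => by simp only [Pi.add_apply, hf g s hs, hf' g s hs]

lemma sub [Sub X] {f f' : (Fin n → G) → X} (hf : IsInv U f) (hf' : IsInv U f') :
    IsInv U (f - f') :=
  fun g s hs => by simp only [Pi.sub_apply, hf g s hs, hf' g s hs]

lemma precomp {G₁ : Type} [Group G₁] (ι : G₁ →* G) {f : (Fin n → G) → X} (hf : IsInv U f) :
    IsInv (U.comap ι) (fun g : Fin n → G₁ => f (ι ∘ g)) := by
  intro g s hs
  have : (ι ∘ (g * s)) = (ι ∘ g) * (ι ∘ s) := by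
    funext i; simp
  simp only [this]
  exact hf _ _ fun i => hs i

end IsInv

/-- Key combinatorial fact: contracting `g * s` differs from contracting `g` by a tuple in a
normal subgroup `U` containing all entries of `s`. -/
theorem contractNth_mul_mem' {U : Subgroup G} [U.Normal] {n : ℕ} (j : Fin (n + 1))
    (g s : Fin (n + 1) → G) (hs : ∀ i, s i ∈ U) :
    ∃ s' : Fin n → G, (∀ i, s' i ∈ U) ∧
      Fin.contractNth j (· * ·) (g * s) = Fin.contractNth j (· * ·) g * s' := by
  refine ⟨(Fin.contractNth j (· * ·) g)⁻¹ * Fin.contractNth j (· * ·) (g * s), fun i => ?_, ?_⟩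
  · rcases lt_trichotomy (i : ℕ) j with h | h | h
    · simp only [Pi.mul_apply, Pi.inv_apply, Fin.contractNth_apply_of_lt _ _ _ _ h]
      simpa using hs _
    · simp only [Pi.mul_apply, Pi.inv_apply, Fin.contractNth_apply_of_eq _ _ _ _ h]
      have : (g i.castSucc * g i.succ)⁻¹ * (g i.castSucc * s i.castSucc * (g i.succ * s i.succ))
          = ((g i.succ)⁻¹ * s i.castSucc * (g i.succ)⁻¹⁻¹) * s i.succ := by group
      rw [this]
      exact U.mul_mem (Subgroup.Normal.conj_mem inferInstance _ (hs _) _) (hs _)
    · simp only [Pi.mul_apply, Pi.inv_apply, Fin.contractNth_apply_of_gt _ _ _ _ h]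
      simpa using hs _
  · simp

/-- The differential preserves invariance under a normal subgroup acting trivially. -/
theorem IsInv.d {A : Rep.{0} k G} {U : Subgroup G} [U.Normal] (hA : TrivOn A U) {n : ℕ}
    {f : (Fin n → G) → A} (hf : IsInv U f) :
    IsInv U ((inhomogeneousCochains.d A n).hom f) := by
  intro g s hs
  simp only [inhomogeneousCochains.d_hom_apply]
  congr 1
  · have h1 : (fun i : Fin n => (g * s) i.succ) = (fun i => g i.succ) * fun i => s i.succ := rfl
    rw [h1, hf _ _ (fun i => hs _), Pi.mul_apply, map_mul, Module.End.mul_apply,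
      hA _ (hs 0)]
  · refine Finset.sum_congr rfl fun j _ => ?_
    obtain ⟨s', hs', h⟩ := contractNth_mul_mem' j g s hs
    rw [h, hf _ _ hs']

/-! ## Descent along a surjection -/

section Descent

variable {G₁ Γ : Type} [Group G₁] [Group Γ]

lemma cochainsMap_res_apply (π : G₁ →* Γ) (B : Rep.{0} k Γ) (n : ℕ)
    (f : (Fin n → Γ) → B) (g : Fin n → G₁) :
    ((cochainsMap π (𝟙 (Rep.res π B))).f n).hom f g = f (π ∘ g) := rfl

theorem cochainsMap_res_injective (π : G₁ →* Γ) (hπ : Function.Surjective π) (B : Rep.{0} k Γ)
    (n : ℕ) : Function.Injective ((cochainsMap π (𝟙 (Rep.res π B))).f n).hom := by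
  intro f f' h
  funext q
  obtain ⟨g, rfl⟩ : ∃ g : Fin n → G₁, π ∘ g = q :=
    ⟨fun i => Function.surjInv hπ (q i), funext fun i => Function.surjInv_eq hπ (q i)⟩
  have := congrFun h g
  rw [cochainsMap_res_apply, cochainsMap_res_apply] at this
  exact this

/-- A cochain on `G₁` invariant under `ker π` descends along the surjection `π`. -/
theorem exists_descent (π : G₁ →* Γ) (hπ : Function.Surjective π) (B : Rep.{0} k Γ) {n : ℕ}
    (f : (Fin n → G₁) → B) (hf : IsInv π.ker f) :
    ∃ f' : (Fin n → Γ) → B, ((cochainsMap π (𝟙 (Rep.res π B))).f n).hom f' = f := by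
  refine ⟨fun q => f (fun i => Function.surjInv hπ (q i)), ?_⟩
  funext g
  rw [cochainsMap_res_apply]
  have h := hf g (fun i => (g i)⁻¹ * Function.surjInv hπ (π (g i))) fun i => by
    rw [MonoidHom.mem_ker, map_mul, map_inv, Function.surjInv_eq hπ]
    simp
  rw [← h]
  congr 1
  funext i
  simp

end Descent

end Fermat.Agent.S55.K.H243
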