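import Fermat.Agent.S55.K.H243.Sylow

/-!
# S55 / layer K (helper243): dévissage for smooth cohomology vanishing

* `sv_of_ext` : `SV` is closed under extensions (half-exactness of `Hⁿ⁺¹_sm`);
* `sv_of_pGroup` : if `G` acts on the finite-dimensional `ZMod p`-representation `A` through a
  finite `p`-group quotient and `SV` holds for the trivial module `ZMod p`, then `SV` holds for
  `A` (filtration with trivial graded pieces).
-/

set_option autoImplicit false

open CategoryTheory groupCohomology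

namespace Fermat.Agent.S55.K.H243

variable {k G : Type} [CommRing k] [Group G]

/-- `d` commutes with push-forward along an equivariant linear map. -/
lemma d_push {A B : Rep.{0} k G} (φ : A →ₗ[k] B) (hφ : ∀ g a, φ (A.ρ g a) = B.ρ g (φ a))
    (n : ℕ) (f : (Fin n → G) → A) :
    (inhomogeneousCochains.d B n).hom (φ ∘ f) = φ ∘ (inhomogeneousCochains.d A n).hom f := by
  funext g
  simp only [inhomogeneousCochains.d_hom_apply, Function.comp_apply, map_add, map_sum,
    map_smul, hφ]

lemma d_d_apply (A : Rep.{0} k G) (n : ℕ) (f : (Fin n → G) → A) :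
    (inhomogeneousCochains.d A (n + 1)).hom ((inhomogeneousCochains.d A n).hom f) = 0 := by
  have h := inhomogeneousCochains.d_comp_d (A := A) (n := n)
  exact congrArg (fun g => g.hom f) h

/-- **Half-exactness**: smooth vanishing is closed under extensions. -/
theorem sv_of_ext {𝒩 : Set (Subgroup G)} (h𝒩 : IsLevels 𝒩) {A' A A'' : Rep.{0} k G}
    (i : A' →ₗ[k] A) (hi : ∀ g a, i (A'.ρ g a) = A.ρ g (i a))
    (q : A →ₗ[k] A'') (hq : ∀ g a, q (A.ρ g a) = A''.ρ g (q a))
    (hinj : Function.Injective i) (hsurj : Function.Surjective q)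
    (hex : ∀ a : A, q a = 0 → ∃ a' : A', i a' = a)
    (hA : USm 𝒩 A) (n : ℕ) (h' : SV 𝒩 A' n) (h'' : SV 𝒩 A'' n) : SV 𝒩 A n := by
  intro z hz ⟨U₁, hU₁, hzU₁⟩
  obtain ⟨U₂, hU₂, hAU₂⟩ := hA
  -- image in `A''`
  have hz'' : (inhomogeneousCochains.d A'' (n + 1)).hom (q ∘ z) = 0 := by
    rw [d_push q hq, hz]
    funext g
    exact map_zero q
  obtain ⟨b'', ⟨W, hW, hb''W⟩, hdb''⟩ := h'' (q ∘ z) hz'' ⟨U₁, hU₁, hzU₁.comp q⟩
  obtain ⟨V, hV, hVU₁, hVU₂, hVW⟩ := h𝒩.exists_le₃ hU₁ hU₂ hW
  haveI := h𝒩.normal V hV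
  -- lift `b''`
  let bt : (Fin n → G) → A := fun g => Function.surjInv hsurj (b'' g)
  have hbt : q ∘ bt = b'' := funext fun g => Function.surjInv_eq hsurj (b'' g)
  have hbtV : IsInv V bt := (hb''W.mono hVW).comp (Function.surjInv hsurj)
  -- the corrected cocycle has values in `A'`
  let z₁ : (Fin (n + 1) → G) → A := z - (inhomogeneousCochains.d A n).hom bt
  have hz₁V : IsInv V z₁ := (hzU₁.mono hVU₁).sub (hbtV.d (hAU₂.mono hVU₂))
  have hqz₁ : ∀ g, q (z₁ g) = 0 := by
    intro g
    have h1 : q ∘ (inhomogeneousCochains.d A n).hom bt = q ∘ z := by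
      rw [← d_push q hq, hbt, hdb'']
    have h2 := congrFun h1 g
    simp only [Function.comp_apply] at h2
    simp only [z₁, Pi.sub_apply, map_sub, h2, sub_self]
  choose z' hz' using fun g => hex (z₁ g) (hqz₁ g)
  have hiz' : i ∘ z' = z₁ := funext hz'
  have hz'V : IsInv V z' := by
    intro g s hs
    apply hinj
    rw [hz', hz', hz₁V g s hs]
  have hdz' : (inhomogeneousCochains.d A' (n + 1)).hom z' = 0 := by
    have h1 : i ∘ (inhomogeneousCochains.d A' (n + 1)).hom z' = 0 := by
      rw [← d_push i hi, hiz']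
      show (inhomogeneousCochains.d A (n + 1)).hom
        (z - (inhomogeneousCochains.d A n).hom bt) = 0
      rw [map_sub, hz, d_d_apply, sub_self]
    funext g
    apply hinj
    have := congrFun h1 g
    exact this.trans (map_zero i).symm
  obtain ⟨b', ⟨W', hW', hb'W'⟩, hdb'⟩ := h' z' hdz' ⟨V, hV, hz'V⟩
  obtain ⟨V', hV', hV'V, hV'W'⟩ := h𝒩.directed V hV W' hW'
  refine ⟨i ∘ b' + bt, ⟨V', hV', ((hb'W'.mono hV'W').comp i).add (hbtV.mono hV'V)⟩, ?_⟩
  rw [map_add, d_push i hi, hdb', hiz']
  simp only [z₁, sub_add_cancel]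

/-- `SV` holds trivially for a zero module. -/
lemma sv_of_subsingleton {𝒩 : Set (Subgroup G)} (h𝒩 : IsLevels 𝒩) (A : Rep.{0} k G)
    [Subsingleton A] (n : ℕ) : SV 𝒩 A n := by
  intro z _ _
  obtain ⟨U, hU⟩ := h𝒩.nonempty
  refine ⟨0, ⟨U, hU, fun _ _ _ => rfl⟩, ?_⟩
  funext g
  exact Subsingleton.elim _ _

/-- **Filtration.** If `G` acts on `A` through a finite `p`-group quotient, smooth vanishing for
the trivial module `ZMod p` implies smooth vanishing for `A`. -/
theorem sv_of_pGroup (p : ℕ) [Fact p.Prime] {𝒩 : Set (Subgroup G)} (h𝒩 : IsLevels 𝒩) (n : ℕ)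
    (htriv : SV 𝒩 (Rep.trivial (ZMod p) G (ZMod p)) n)
    (U₀ : Subgroup G) (hU₀ : U₀ ∈ 𝒩) (hp : ∀ g : G, ∃ a : ℕ, g ^ p ^ a ∈ U₀) :
    ∀ (d : ℕ) (A : Rep.{0} (ZMod p) G), Module.Finite (ZMod p) A →
      Module.finrank (ZMod p) A = d → TrivOn A U₀ → SV 𝒩 A n := by
  intro d
  induction d with
  | zero =>
    intro A hfin hd hA
    haveI : Subsingleton A := Module.finrank_zero_iff.1 hd
    exact sv_of_subsingleton h𝒩 A n
  | succ d ih =>
    intro A hfin hd hA
    haveI := h𝒩.normal U₀ hU₀
    haveI : Representation.IsTrivial (A.ρ.comp U₀.subtype) :=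
      ⟨fun u => by ext a; exact hA u.1 u.2 a⟩
    -- the `p`-group `G ⧸ U₀` acts on the finite set `A`
    have hPG : IsPGroup p (G ⧸ U₀) := by
      intro x
      induction x using QuotientGroup.induction_on with
      | H g =>
        obtain ⟨a, ha⟩ := hp g
        refine ⟨a, ?_⟩
        rw [← QuotientGroup.mk_pow]
        exact (QuotientGroup.eq_one_iff _).2 ha
    letI : MulAction (G ⧸ U₀) A.V := MulAction.compHom A.V (A.ρ.ofQuotient U₀)
    haveI : Finite A.V := Module.finite_of_finite (ZMod p)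
    have hcard : p ∣ Nat.card A.V := by
      rw [Module.natCard_eq_pow_finrank (K := ZMod p) (V := A.V), hd, Nat.card_zmod, pow_succ]
      exact dvd_mul_left p _
    have h0 : (0 : A.V) ∈ MulAction.fixedPoints (G ⧸ U₀) A.V := by
      intro x
      show (A.ρ.ofQuotient U₀ x) 0 = 0
      exact map_zero _
    obtain ⟨v, hvfix, hv0⟩ := hPG.exists_fixed_point_of_prime_dvd_card_of_fixed_point A.V hcard h0
    have hv : v ≠ 0 := fun h => hv0 h.symm
    have hfix : ∀ g : G, A.ρ g v = v := fun g => hvfix (g : G ⧸ U₀)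
    -- the line spanned by `v` and the quotient
    let W : Submodule (ZMod p) A.V := Submodule.span (ZMod p) {v}
    have hW : ∀ g, W ≤ W.comap (A.ρ g) := by
      intro g w hw
      obtain ⟨c, rfl⟩ := Submodule.mem_span_singleton.1 hw
      rw [Submodule.mem_comap, map_smul, hfix g]
      exact Submodule.smul_mem _ _ (Submodule.mem_span_singleton_self v)
    let A'' : Rep.{0} (ZMod p) G := Rep.of (A.ρ.quotient W hW)
    have hA'' : TrivOn A'' U₀ := by
      intro u hu x
      induction x using Submodule.Quotient.induction_on with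
      | H a =>
        show Submodule.Quotient.mk (A.ρ u a) = Submodule.Quotient.mk a
        rw [hA u hu a]
    have hfin'' : Module.Finite (ZMod p) A'' :=
      inferInstanceAs (Module.Finite (ZMod p) (A.V ⧸ W))
    have hd'' : Module.finrank (ZMod p) A'' = d := by
      have h1 := Submodule.finrank_quotient_add_finrank W
      have h2 : Module.finrank (ZMod p) W = 1 := finrank_span_singleton hv
      have h3 : Module.finrank (ZMod p) (A.V ⧸ W) + 1 = d + 1 := by
        rw [h2] at h1
        rw [h1, hd]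
      exact Nat.succ_injective h3
    refine sv_of_ext h𝒩 (A' := Rep.trivial (ZMod p) G (ZMod p)) (A'' := A'')
      (LinearMap.toSpanSingleton (ZMod p) A.V v) ?_ W.mkQ ?_ ?_ (Submodule.mkQ_surjective W) ?_
      ⟨U₀, hU₀, hA⟩ n htriv (ih A'' hfin'' hd'' hA'')
    · intro g c
      show (c • v : A.V) = A.ρ g (c • v)
      rw [map_smul, hfix g]
    · intro g a
      rfl
    · intro c c' h
      exact smul_left_injective (ZMod p) hv h
    · intro a ha
      have : a ∈ W := (Submodule.Quotient.mk_eq_zero W).1 ha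
      obtain ⟨c, hc⟩ := Submodule.mem_span_singleton.1 this
      exact ⟨c, hc⟩

end Fermat.Agent.S55.K.H243
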