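import Fermat.Agent.S55.K.H243.Main

/-!
# S55 / layer K (helper243): the arithmetic input at finite level

`ArithFin p 𝒩 K n`: for every level `U`, every `p`-subgroup `H ≤ G ⧸ U` whose preimage lies in
`K`, and every class `x ∈ Hⁿ⁺¹(H, ZMod p)` (Mathlib `groupCohomology`, trivial coefficients),
there is a level `V ≤ U` such that the inflation of `x` to the preimage of `H` in `G ⧸ V`
vanishes.  `arithSm_of_arithFin`: this implies the smooth form `ArithSm`.
-/

set_option autoImplicit false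

open CategoryTheory groupCohomology

namespace Fermat.Agent.S55.K.H243

variable {G : Type} [Group G]

/-- The arithmetic input at finite level. -/
def ArithFin (p : ℕ) [Fact p.Prime] (𝒩 : Set (Subgroup G)) (K : Subgroup G) (n : ℕ) : Prop :=
  ∀ (U : Subgroup G) [U.Normal], U ∈ 𝒩 → ∀ H : Subgroup (G ⧸ U), IsPGroup p H →
    (∀ g : G, (g : G ⧸ U) ∈ H → g ∈ K) →
    ∀ x : groupCohomology (Rep.trivial (ZMod p) H (ZMod p)) (n + 1),
      ∃ (V : Subgroup G) (_ : V.Normal) (_ : V ∈ 𝒩) (h : V ≤ U),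
        (groupCohomology.map ((QuotientGroup.map V U (MonoidHom.id G) h).subgroupComap H)
          (𝟙 (Rep.trivial (ZMod p) _ (ZMod p))) (n + 1)).hom x = 0

lemma cochainsMap_triv_apply {k G₁ Γ : Type} [CommRing k] [Group G₁] [Group Γ] (π : G₁ →* Γ)
    (n : ℕ) (f : (Fin n → Γ) → (Rep.trivial k Γ k)) (g : Fin n → G₁) :
    ((cochainsMap (A := Rep.trivial k Γ k) (B := Rep.trivial k G₁ k) π
      (𝟙 (Rep.trivial k G₁ k))).f n).hom f g = f (π ∘ g) := rfl

set_option maxHeartbeats 400000 in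
theorem arithSm_of_arithFin (p : ℕ) [Fact p.Prime] {𝒩 : Set (Subgroup G)} (h𝒩 : IsLevels 𝒩)
    (K : Subgroup G) (n : ℕ) (h : ArithFin p 𝒩 K n) : ArithSm p 𝒩 K n := by
  intro G₁ _ ι hιK U hU hUK hp z hz hzU
  haveI := h𝒩.normal U hU
  -- the image of `G₁` in `G ⧸ U`
  let π₀ : G₁ →* G ⧸ U := (QuotientGroup.mk' U).comp ι
  let H : Subgroup (G ⧸ U) := π₀.range
  let π₁ : G₁ →* H := π₀.rangeRestrict
  have hπ₁ : Function.Surjective π₁ := π₀.rangeRestrict_surjective
  have hker : π₁.ker = U.comap ι := by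
    rw [MonoidHom.ker_rangeRestrict]
    ext g
    rw [MonoidHom.mem_ker, Subgroup.mem_comap]
    exact QuotientGroup.eq_one_iff _
  have hHp : IsPGroup p H := by
    rintro ⟨_, g, rfl⟩
    obtain ⟨a, ha⟩ := hp g
    refine ⟨a, Subtype.ext ?_⟩
    simp only [Subgroup.coe_pow, Subgroup.coe_one]
    show (QuotientGroup.mk' U (ι g)) ^ p ^ a = 1
    rw [← map_pow]
    exact (QuotientGroup.eq_one_iff _).2 ha
  have hHK : ∀ g : G, (g : G ⧸ U) ∈ H → g ∈ K := by
    rintro g ⟨g₁, hg₁⟩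
    have h1 : (QuotientGroup.mk (ι g₁) : G ⧸ U) = QuotientGroup.mk g := hg₁
    have h2 : (ι g₁)⁻¹ * g ∈ U := QuotientGroup.eq.1 h1
    have h3 : ι g₁ * ((ι g₁)⁻¹ * g) ∈ K := K.mul_mem (hιK g₁) (hUK h2)
    simpa using h3
  -- descend `z` to `H`
  let B : Rep.{0} (ZMod p) H := Rep.trivial (ZMod p) H (ZMod p)
  obtain ⟨z', hz'⟩ := exists_descent π₁ hπ₁ B (n := n + 1) z (by rw [hker]; exact hzU)
  have hdz' : (inhomogeneousCochains.d B (n + 1)).hom z' = 0 := by
    apply cochainsMap_res_injective π₁ hπ₁ B (n + 2)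
    rw [← d_cochainsMap, hz', map_zero]
    exact hz
  obtain ⟨V, hVn, hV, hVU, hx⟩ := h U hU H hHp hHK (cls B z' hdz')
  let q : G ⧸ V →* G ⧸ U := QuotientGroup.map V U (MonoidHom.id G) hVU
  let r : H.comap q →* H := q.subgroupComap H
  have hdr : (inhomogeneousCochains.d (Rep.trivial (ZMod p) (H.comap q) (ZMod p)) (n + 1)).hom
      (((cochainsMap r (𝟙 (Rep.trivial (ZMod p) (H.comap q) (ZMod p)))).f (n + 1)).hom z') = 0 := by
    rw [d_cochainsMap, hdz', map_zero]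
  have hm := map_cls (A := B) (B := Rep.trivial (ZMod p) (H.comap q) (ZMod p)) r
    (𝟙 (Rep.trivial (ZMod p) (H.comap q) (ZMod p))) z' hdz' hdr
  have hx3 : cls (Rep.trivial (ZMod p) (H.comap q) (ZMod p)) _ hdr = 0 := hm.symm.trans hx
  rw [cls_eq_zero_iff] at hx3
  obtain ⟨b', hb'⟩ := hx3
  -- the map `G₁ → H.comap q`
  let π₂ : G₁ →* H.comap q := ((QuotientGroup.mk' V).comp ι).codRestrict (H.comap q)
    (fun g => ⟨g, rfl⟩)
  refine ⟨((cochainsMap (A := Rep.trivial (ZMod p) (H.comap q) (ZMod p))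
      (B := Rep.trivial (ZMod p) G₁ (ZMod p)) π₂
      (𝟙 (Rep.trivial (ZMod p) G₁ (ZMod p)))).f n).hom b',
    ⟨_, mem_pull ι hV, ?_⟩, ?_⟩
  · intro g s hs
    rw [cochainsMap_triv_apply, cochainsMap_triv_apply]
    congr 1
    funext i
    have h1 : π₂ (s i) = 1 := by
      apply Subtype.ext
      show QuotientGroup.mk' V (ι (s i)) = 1
      exact (QuotientGroup.eq_one_iff _).2 (hs i)
    simp [h1]
  · have h1 := d_cochainsMap (A := Rep.trivial (ZMod p) (H.comap q) (ZMod p))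
      (B := Rep.trivial (ZMod p) G₁ (ZMod p)) π₂ (𝟙 (Rep.trivial (ZMod p) G₁ (ZMod p))) n b'
    rw [h1, hb', ← hz']
    funext g
    rw [cochainsMap_triv_apply, cochainsMap_triv_apply, cochainsMap_res_apply]
    rfl

end Fermat.Agent.S55.K.H243
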