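import Fermat.Agent.S55.K.H243.Surj2
import Fermat.Agent.S55.PT.Spec
import Fermat.Agent.S55.PT.LevelsNormal
import Fermat.Agent.S55.Bridge.DualTwist
import Fermat.Agent.S55.Spec.Tower

/-!
# S55 / layer K, leaf K:A3 (helper243): `Surj2GlobSpec` from `H³(G_S(K), μ_p) = 0`

`H3MuSpec p S` is the arithmetic input, stated at FINITE level in the vocabulary of
`Spec/Tower.lean`: for every level `F` (finite Galois, unramified outside `S`), every
`p`-subgroup `H ≤ Gal(F/ℚ)` on whose preimage the mod-`p` cyclotomic character is trivial, and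
every class `x ∈ H³(H, ZMod p)` (Mathlib `groupCohomology`, trivial coefficients `≅ μ_p`), there
is a level `F' ≥ F` such that the inflation of `x` to the preimage of `H` in `Gal(F'/ℚ)`
vanishes.

`surj2Glob_of_h3Mu : pPrime p ∈ S → H3MuSpec p S → Surj2GlobSpec p S` — the complete formal
reduction (Sylow + filtration + passage to the limit).  No hypothesis `p ≠ 2` is needed here; it
is needed for `H3MuSpec`.
-/

set_option autoImplicit false

open CategoryTheory groupCohomology ExtCitation

namespace Fermat.Agent.S55.K.H243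

open Fermat.Agent.S55.PT Fermat.Agent.S55.Bridge Fermat.Agent.S55

attribute [local instance] isAlgebraic_Qbar isGalois_Qbar

variable (p : ℕ) [Fact p.Prime] (S : Finset Nat.Primes)

/-- **Arithmetic input of K:A3** (`H³(G_S(K), μ_p) = 0` for `K ∋ μ_p`), at finite level. -/
def H3MuSpec : Prop :=
  ∀ (F : Tow.Level S) (H : Subgroup F.Gal), IsPGroup p H →
    (∀ g : Tow.GQ, (QuotientGroup.mk g : F.Gal) ∈ H → cycloChar p g = 1) →
    ∀ x : groupCohomology (Rep.trivial (ZMod p) H (ZMod p)) 3,
      ∃ (F' : Tow.Level S) (h : F ≤ F'),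
        (groupCohomology.map ((Tow.Level.proj h).subgroupComap H)
          (𝟙 (Rep.trivial (ZMod p) _ (ZMod p))) 3).hom x = 0

theorem globalLevels_normalCofinal : (globalLevels S).NormalCofinal :=
  globalLevels_normal_cofinal724 S

theorem globalLevels_finiteIndex : (globalLevels S).FiniteIndex := by
  rintro U ⟨F, hF, rfl⟩
  haveI := hF.1
  refine ⟨?_⟩
  rw [← IntermediateField.finrank_eq_fixingSubgroup_index]
  exact Module.finrank_pos.ne'

/-- The kernel of the mod-`p` cyclotomic character is a normal level when `p ∈ S`. -/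
theorem ker_cycloChar_mem (hpS : pPrime p ∈ S) :
    (cycloChar p).ker ∈ normalLevels (globalLevels S) := by
  obtain ⟨L, hL, -, hfix, -⟩ := exists_galois_level_of_subgroup S (cycloChar p).ker
    (cycloLevel p) (cycloLevel_finiteDimensional p)
    (fun s hs => MonoidHom.mem_ker.2 (cycloChar_eq_one_of_mem_fixingSubgroup p s hs))
    (fun q hq A hA g hg => MonoidHom.mem_ker.2
      (cycloChar_eq_one_of_mem_inertia p q.2 (fun h => hq (by
        have : q = pPrime p := Subtype.ext h
        rw [this]; exact hpS)) A hA g hg))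
  exact ⟨⟨L, hL, hfix.symm⟩, inferInstance⟩

theorem not_dvd_index_ker_cycloChar : ¬ p ∣ (cycloChar p).ker.index := by
  have hp : p.Prime := Fact.out
  rw [Subgroup.index_ker]
  intro h
  have h1 : Nat.card (cycloChar p).range ∣ Nat.card (ZMod p)ˣ :=
    Subgroup.card_subgroup_dvd_card _
  have h2 : Nat.card (ZMod p)ˣ = p - 1 := by
    rw [Nat.card_eq_fintype_card, ZMod.card_units]
  rw [h2] at h1
  have h3 : p ∣ p - 1 := h.trans h1
  have h4 : p ≤ p - 1 := Nat.le_of_dvd (Nat.sub_pos_of_lt hp.one_lt) h3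
  have := hp.pos
  omega

theorem arithFin_of_h3Mu (h : H3MuSpec p S) :
    ArithFin p (normalLevels (globalLevels S)) (cycloChar p).ker 2 := by
  intro U _ hU H hHp hHK x
  obtain ⟨⟨F, hF, rfl⟩, hUn⟩ := hU
  obtain ⟨F', hle, hx⟩ := h ⟨F, hF, hUn⟩ H hHp
    (fun g hg => MonoidHom.mem_ker.1 (hHK g hg)) x
  exact ⟨F'.U, F'.normalU, ⟨⟨F'.F, F'.unram, rfl⟩, F'.normalU⟩, Tow.Level.U_anti hle, hx⟩

/-- **K:A3.** `H²_S` is right exact on finite-dimensional smooth modules, given the vanishing
of `H³(G_S(K), μ_p)` in the limit. -/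
theorem surj2Glob_of_h3Mu (hpS : pPrime p ∈ S) (h : H3MuSpec p S) : Surj2GlobSpec p S := by
  intro P N φ hφ hPfin hP _ hsurj
  have hN := globalLevels_normalCofinal S
  have hF := globalLevels_finiteIndex S
  have h𝒩 := isLevels_normalLevels (globalLevels S) hN hF
  refine pushH2_surjective_of_sv (globalLevels S) hN hF φ hφ hP hsurj ?_
  haveI : Module.Finite (ZMod p) (kerRep φ hφ) :=
    inferInstanceAs (Module.Finite (ZMod p) (LinearMap.ker φ))
  refine sv_of_arith p h𝒩 (cycloChar p).ker ⟨_, ker_cycloChar_mem p S hpS, le_rfl⟩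
    (not_dvd_index_ker_cycloChar p) 2
    (arithSm_of_arithFin p h𝒩 _ 2 (arithFin_of_h3Mu p S h)) (kerRep φ hφ) ?_
  obtain ⟨UP, hUP, hPUP⟩ := hP
  obtain ⟨V, hV, hVUP⟩ := exists_normalLevel_le (globalLevels S) hN hUP
  exact ⟨V, hV, fun u hu a => Subtype.ext (hPUP u (hVUP hu) a.1)⟩

end Fermat.Agent.S55.K.H243
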