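import Fermat.Agent.S55.K.H243.Devissage

/-!
# S55 / layer K (helper243): `cd_p ≤ n` from the arithmetic input on `p`-subgroups

`sv_of_arith`: let `K ⊴ G` be an open normal subgroup of index prime to `p` (the kernel of the
mod-`p` cyclotomic character).  If smooth vanishing in degree `n + 1` holds for the trivial module
`ZMod p` on every "`p`-group over a level inside `K`" (`ArithSm`), then it holds for every
finite-dimensional uniformly smooth `ZMod p`-representation of `G`.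
-/

set_option autoImplicit false

open CategoryTheory groupCohomology

namespace Fermat.Agent.S55.K.H243

variable {G : Type} [Group G]

/-- The arithmetic input in "smooth" form: for every group `G₁` mapping to `K ≤ G` which is a
`p`-group modulo the level `U`, every cocycle on `G₁` with trivial coefficients `ZMod p` which is
invariant under (the preimage of) `U` is the coboundary of a smooth cochain. -/
def ArithSm (p : ℕ) [Fact p.Prime] (𝒩 : Set (Subgroup G)) (K : Subgroup G) (n : ℕ) : Prop :=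
  ∀ (G₁ : Type) [Group G₁] (ι : G₁ →* G), (∀ g, ι g ∈ K) → ∀ U ∈ 𝒩, U ≤ K →
    (∀ g : G₁, ∃ a : ℕ, (ι g) ^ p ^ a ∈ U) →
    ∀ z : (Fin (n + 1) → G₁) → (Rep.trivial (ZMod p) G₁ (ZMod p)),
      (inhomogeneousCochains.d (Rep.trivial (ZMod p) G₁ (ZMod p)) (n + 1)).hom z = 0 →
      IsInv (U.comap ι) z → SCob (pull ι 𝒩) (Rep.trivial (ZMod p) G₁ (ZMod p)) z

lemma pull_pull {G₁ G₂ : Type} [Group G₁] [Group G₂] (ι₁ : G₁ →* G) (ι₂ : G₂ →* G₁)
    (𝒩 : Set (Subgroup G)) : pull ι₂ (pull ι₁ 𝒩) = pull (ι₁.comp ι₂) 𝒩 := by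
  unfold pull
  rw [Set.image_image]
  rfl

/-- An element with `g ^ (p ^ a) ∈ K` belongs to the normal subgroup `K` of index prime to `p`. -/
lemma mem_of_pow_mem (p : ℕ) [Fact p.Prime] (K : Subgroup G) [K.Normal] (hKidx : ¬ p ∣ K.index)
    {g : G} {a : ℕ} (hg : g ^ p ^ a ∈ K) : g ∈ K := by
  have h1 : g ^ K.index ∈ K := K.pow_index_mem g
  have hcop : Nat.Coprime (p ^ a) K.index :=
    Nat.Coprime.pow_left a ((Nat.Prime.coprime_iff_not_dvd Fact.out).2 hKidx)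
  have h2 : g ^ (Nat.gcd (p ^ a) K.index : ℤ) ∈ K := by
    rw [Nat.gcd_eq_gcd_ab, zpow_add, zpow_mul, zpow_mul, zpow_natCast, zpow_natCast]
    exact K.mul_mem (K.zpow_mem hg _) (K.zpow_mem h1 _)
  rw [hcop] at h2
  simpa using h2

/-- **Main dévissage.** -/
theorem sv_of_arith (p : ℕ) [Fact p.Prime] {𝒩 : Set (Subgroup G)} (h𝒩 : IsLevels 𝒩)
    (K : Subgroup G) [K.Normal] (hK : ∃ U ∈ 𝒩, U ≤ K) (hKidx : ¬ p ∣ K.index) (n : ℕ)
    (harith : ArithSm p 𝒩 K n) (A : Rep.{0} (ZMod p) G) [Module.Finite (ZMod p) A]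
    (hA : USm 𝒩 A) : SV 𝒩 A n := by
  intro z hz hzs
  obtain ⟨U₂, hU₂, hAU₂⟩ := hA
  obtain ⟨U₃, hU₃, hU₃K⟩ := hK
  obtain ⟨U₀, hU₀, hU₀U₂, hU₀U₃⟩ := h𝒩.directed U₂ hU₂ U₃ hU₃
  haveI := h𝒩.normal U₀ hU₀
  haveI := h𝒩.finiteIndex U₀ hU₀
  obtain ⟨P₀⟩ := (inferInstance : Nonempty (Sylow p (G ⧸ U₀)))
  let G' : Subgroup G := (P₀ : Subgroup (G ⧸ U₀)).comap (QuotientGroup.mk' U₀)
  have hidx : ¬ p ∣ G'.index := by
    rw [Subgroup.index_comap_of_surjective _ (QuotientGroup.mk'_surjective U₀)]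
    exact P₀.not_dvd_index
  have hU₀G' : U₀ ≤ G' := by
    intro u hu
    show QuotientGroup.mk' U₀ u ∈ (P₀ : Subgroup (G ⧸ U₀))
    have h1 : QuotientGroup.mk' U₀ u = 1 := (QuotientGroup.eq_one_iff u).2 hu
    rw [h1]
    exact Subgroup.one_mem _
  have hG'p : ∀ g : G', ∃ a : ℕ, (g : G) ^ p ^ a ∈ U₀ := by
    intro g
    obtain ⟨a, ha⟩ := P₀.isPGroup' ⟨QuotientGroup.mk' U₀ (g : G), g.2⟩
    refine ⟨a, ?_⟩
    have h1 := congrArg Subtype.val ha
    simp only [Subgroup.coe_pow, Subgroup.coe_one] at h1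
    rw [← map_pow] at h1
    exact (QuotientGroup.eq_one_iff _).1 h1
  have hG'K : ∀ g : G', (g : G) ∈ K := by
    intro g
    obtain ⟨a, ha⟩ := hG'p g
    exact mem_of_pow_mem p K hKidx (hU₃K (hU₀U₃ ha))
  have h𝒩' := h𝒩.pull G'.subtype
  -- smooth vanishing for the trivial module on `G'`
  have htriv : SV (pull G'.subtype 𝒩) (Rep.trivial (ZMod p) G' (ZMod p)) n := by
    rintro z₁ hz₁ ⟨_, ⟨U₁', hU₁', rfl⟩, hz₁U₁'⟩
    obtain ⟨U₁, hU₁, hU₁U₁', hU₁U₀⟩ := h𝒩.directed U₁' hU₁' U₀ hU₀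
    have hz₁U₁ : IsInv (U₁.comap G'.subtype) z₁ := hz₁U₁'.mono (Subgroup.comap_mono hU₁U₁')
    have hN₁ : U₁.comap G'.subtype ∈ pull G'.subtype 𝒩 := mem_pull _ hU₁
    haveI := h𝒩'.normal _ hN₁
    haveI := h𝒩'.finiteIndex _ hN₁
    obtain ⟨Q⟩ := (inferInstance : Nonempty (Sylow p (G' ⧸ U₁.comap G'.subtype)))
    let G'' : Subgroup G' :=
      (Q : Subgroup (G' ⧸ U₁.comap G'.subtype)).comap (QuotientGroup.mk' _)
    have hidx'' : ¬ p ∣ G''.index := by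
      rw [Subgroup.index_comap_of_surjective _ (QuotientGroup.mk'_surjective _)]
      exact Q.not_dvd_index
    have hN₁G'' : U₁.comap G'.subtype ≤ G'' := by
      intro u hu
      show QuotientGroup.mk' _ u ∈ (Q : Subgroup (G' ⧸ U₁.comap G'.subtype))
      have h1 : QuotientGroup.mk' (U₁.comap G'.subtype) u = 1 :=
        (QuotientGroup.eq_one_iff u).2 hu
      rw [h1]
      exact Subgroup.one_mem _
    have hG''p : ∀ g : G'', ∃ a : ℕ, ((g : G') : G) ^ p ^ a ∈ U₁ := by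
      intro g
      obtain ⟨a, ha⟩ := Q.isPGroup' ⟨QuotientGroup.mk' _ (g : G'), g.2⟩
      refine ⟨a, ?_⟩
      have h1 := congrArg Subtype.val ha
      simp only [Subgroup.coe_pow, Subgroup.coe_one] at h1
      rw [← map_pow] at h1
      have h2 : (g : G') ^ p ^ a ∈ U₁.comap G'.subtype := (QuotientGroup.eq_one_iff _).1 h1
      rw [Subgroup.mem_comap] at h2
      simpa using h2
    refine scob_of_res p h𝒩' (Rep.trivial (ZMod p) G' (ZMod p))
      ⟨_, hN₁, fun _ _ _ => rfl⟩ G'' ⟨_, hN₁, hN₁G''⟩ hidx'' z₁ hz₁ ⟨_, hN₁, hz₁U₁⟩ ?_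
    rw [pull_pull]
    refine harith G'' (G'.subtype.comp G''.subtype) (fun g => hG'K (g : G')) U₁ hU₁
      (hU₁U₀.trans (hU₀U₃.trans hU₃K)) hG''p
      (((cochainsMap G''.subtype (𝟙 (Rep.res G''.subtype
        (Rep.trivial (ZMod p) G' (ZMod p))))).f (n + 1)).hom z₁) ?_ ?_
    · have h := d_cochainsMap G''.subtype
        (𝟙 (Rep.res G''.subtype (Rep.trivial (ZMod p) G' (ZMod p)))) (n + 1) z₁
      rw [hz₁, map_zero] at h
      exact h
    · exact hz₁U₁.precomp G''.subtype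
  -- filtration on `G'`
  have hsv : SV (pull G'.subtype 𝒩) (Rep.res G'.subtype A) n := by
    refine sv_of_pGroup p h𝒩' n htriv (U₀.comap G'.subtype) (mem_pull _ hU₀) ?_
      (Module.finrank (ZMod p) A) (Rep.res G'.subtype A) ?_ rfl ?_
    · intro g
      obtain ⟨a, ha⟩ := hG'p g
      refine ⟨a, ?_⟩
      rw [Subgroup.mem_comap]
      simpa using ha
    · exact inferInstanceAs (Module.Finite (ZMod p) A)
    · intro u hu a
      exact hAU₂ _ (hU₀U₂ hu) a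
  -- Sylow reduction
  obtain ⟨U₁, hU₁, hzU₁⟩ := hzs
  refine scob_of_res p h𝒩 A ⟨U₂, hU₂, hAU₂⟩ G' ⟨U₀, hU₀, hU₀G'⟩ hidx z hz ⟨U₁, hU₁, hzU₁⟩ ?_
  refine hsv _ ?_ ⟨_, mem_pull _ hU₁, hzU₁.precomp G'.subtype⟩
  have h := d_cochainsMap G'.subtype (𝟙 (Rep.res G'.subtype A)) (n + 1) z
  rw [hz, map_zero] at h
  exact h

end Fermat.Agent.S55.K.H243
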