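import Fermat.Agent.S55.K.H243.Fin
import Fermat.Agent.S55.PT.Coh

/-!
# S55 / layer K (helper243): right exactness of level-constant `H²` from smooth `H³`-vanishing

`pushH2_surjective_of_sv`: for a level system `L` (normal levels cofinal) on `G`, a surjective
equivariant map `φ : P → N` with `P` uniformly smooth, and `K₀ = ker φ`: if every smooth
3-cocycle with values in `K₀` is a smooth coboundary (`SV (normalLevels L) K₀ 2`), then
`PT.pushH2 φ : H²(P) → H²(N)` is surjective.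
-/

set_option autoImplicit false

open CategoryTheory groupCohomology

namespace Fermat.Agent.S55.K.H243

open Fermat.Agent.S55.PT

variable {k : Type} [Field k] {G : Type} [Group G]

/-- The normal levels of a level system. -/
def normalLevels (L : LevelSys G) : Set (Subgroup G) := {U | U ∈ L.levels ∧ U.Normal}

theorem isLevels_normalLevels (L : LevelSys G) (hN : L.NormalCofinal) (hF : L.FiniteIndex) :
    IsLevels (normalLevels L) where
  nonempty := by
    obtain ⟨U, hU⟩ := L.nonempty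
    obtain ⟨V, hV, _, hVn⟩ := hN U hU
    exact ⟨V, hV, hVn⟩
  normal := fun _ hU => hU.2
  finiteIndex := fun U hU => hF U hU.1
  directed := by
    rintro U ⟨hU, _⟩ V ⟨hV, _⟩
    obtain ⟨W, hW, hWUV⟩ := L.directed U hU V hV
    obtain ⟨W', hW', hW'W, hW'n⟩ := hN W hW
    exact ⟨W', ⟨hW', hW'n⟩, hW'W.trans (hWUV.trans inf_le_left),
      hW'W.trans (hWUV.trans inf_le_right)⟩

/-- Every level contains a normal level. -/
lemma exists_normalLevel_le (L : LevelSys G) (hN : L.NormalCofinal) {U : Subgroup G}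
    (hU : U ∈ L.levels) : ∃ V ∈ normalLevels L, V ≤ U := by
  obtain ⟨V, hV, hVU, hVn⟩ := hN U hU
  exact ⟨V, ⟨hV, hVn⟩, hVU⟩

/-- The kernel of an equivariant map, as a representation. -/
noncomputable def kerRep {P N : Rep.{0, 0, 0} k G} (φ : P →ₗ[k] N) (hφ : IsEquivariant φ) :
    Rep.{0, 0, 0} k G :=
  Rep.of (P.ρ.subrepresentation (LinearMap.ker φ) fun g a ha => by
    have hφ' : ∀ (g : G) (a : P), φ (P.ρ g a) = N.ρ g (φ a) := hφ
    rw [Submodule.mem_comap, LinearMap.mem_ker, hφ', LinearMap.mem_ker.1 ha, map_zero])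

/-- 2-cochains: from pairs to `Fin 2`-tuples. -/
def toFin2 {X : Type*} (f : G × G → X) : (Fin 2 → G) → X := fun g => f (g 0, g 1)

/-- 2-cochains: from `Fin 2`-tuples to pairs. -/
def ofFin2 {X : Type*} (e : (Fin 2 → G) → X) : G × G → X := fun x => e ![x.1, x.2]

lemma ofFin2_toFin2 {X : Type*} (f : G × G → X) : ofFin2 (toFin2 f) = f := by
  funext x
  rfl

lemma toFin2_eq_inv (A : Rep.{0, 0, 0} k G) (f : G × G → A) :
    toFin2 f = (cochainsIso₂ A).inv.hom f := rfl

lemma ofFin2_eq_hom (A : Rep.{0, 0, 0} k G) (e : (Fin 2 → G) → A) :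
    ofFin2 e = (cochainsIso₂ A).hom.hom e := rfl

lemma d_toFin2 (A : Rep.{0, 0, 0} k G) (f : G × G → A) :
    (inhomogeneousCochains.d A 2).hom (toFin2 f) = (cochainsIso₃ A).inv.hom ((d₂₃ A).hom f) := by
  have h := eq_d₂₃_comp_inv A
  rw [inhomogeneousCochains.d_def] at h
  have h2 := congrArg (fun g => g.hom f) h
  simp only [ModuleCat.hom_comp, LinearMap.comp_apply] at h2
  exact h2

lemma d₂₃_ofFin2 (A : Rep.{0, 0, 0} k G) (e : (Fin 2 → G) → A) :
    (d₂₃ A).hom (ofFin2 e) = (cochainsIso₃ A).hom.hom ((inhomogeneousCochains.d A 2).hom e) := by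
  have h := comp_d₂₃_eq A
  rw [inhomogeneousCochains.d_def] at h
  have h2 := congrArg (fun g => g.hom e) h
  simp only [ModuleCat.hom_comp, LinearMap.comp_apply] at h2
  exact h2

lemma isInv_toFin2 {X : Type*} {U : Subgroup G} {f : G × G → X}
    (hf : ∀ g g' s s' : G, s ∈ U → s' ∈ U → f (g * s, g' * s') = f (g, g')) :
    IsInv U (toFin2 f) := fun g s hs => hf (g 0) (g 1) (s 0) (s 1) (hs 0) (hs 1)

lemma isLC₂_ofFin2 {X : Type*} {U : Subgroup G} {e : (Fin 2 → G) → X} (he : IsInv U e)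
    (g g' s s' : G) (hs : s ∈ U) (hs' : s' ∈ U) :
    ofFin2 e (g * s, g' * s') = ofFin2 e (g, g') := by
  have h := he ![g, g'] ![s, s'] (fun i => by fin_cases i <;> simpa)
  have h2 : (![g, g'] * ![s, s'] : Fin 2 → G) = ![g * s, g' * s'] := by
    funext i; fin_cases i <;> rfl
  rw [h2] at h
  exact h

/-- **Right exactness of `H²` from `H³`-vanishing.** -/
theorem pushH2_surjective_of_sv (L : LevelSys G) (hN : L.NormalCofinal) (hF : L.FiniteIndex)
    {P N : Rep.{0, 0, 0} k G} (φ : P →ₗ[k] N) (hφ : IsEquivariant φ) (hP : L.IsUSmooth P)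
    (hsurj : Function.Surjective φ) (hsv : SV (normalLevels L) (kerRep φ hφ) 2) :
    Function.Surjective (pushH2 φ hφ L) := by
  have h𝒩 := isLevels_normalLevels L hN hF
  have hφ' : ∀ (g : G) (a : P), φ (P.ρ g a) = N.ρ g (φ a) := hφ
  intro y
  obtain ⟨c, rfl⟩ := L.H2π_surjective N y
  obtain ⟨hc, W, hW, hcW⟩ := c.2
  obtain ⟨UP, hUP, hPUP⟩ := hP
  obtain ⟨W', hW', hW'le⟩ := L.directed W hW UP hUP
  obtain ⟨V, hV, hVW'⟩ := exists_normalLevel_le L hN hW'
  haveI := hV.2
  have hVW : V ≤ W := hVW'.trans (hW'le.trans inf_le_left)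
  have hPV : TrivOn P V := fun u hu a => hPUP u ((hVW'.trans (hW'le.trans inf_le_right)) hu) a
  -- lift `c` to a cochain with values in `P`
  let ct : (Fin 2 → G) → P := fun g => Function.surjInv hsurj ((c : G × G → N) (g 0, g 1))
  have hct : φ ∘ ct = toFin2 (c : G × G → N) :=
    funext fun g => Function.surjInv_eq hsurj _
  have hctV : IsInv V ct :=
    (isInv_toFin2 (f := (c : G × G → N))
      (fun g g' s s' hs hs' => hcW g g' s s' (hVW hs) (hVW hs'))).comp (Function.surjInv hsurj)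
  -- its coboundary has values in the kernel
  let ζP : (Fin 3 → G) → P := (inhomogeneousCochains.d P 2).hom ct
  have hζPV : IsInv V ζP := hctV.d hPV
  have hφζ : ∀ g, φ (ζP g) = 0 := by
    intro g
    have h1 : φ ∘ ζP = (inhomogeneousCochains.d N 2).hom (φ ∘ ct) := (d_push φ hφ' 2 ct).symm
    rw [hct, d_toFin2] at h1
    have hc0 : (d₂₃ N).hom (c : G × G → N) = 0 := hc
    rw [hc0, map_zero] at h1
    exact congrFun h1 g
  let K₀ := kerRep φ hφ
  let ι : K₀ →ₗ[k] P := (LinearMap.ker φ).subtype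
  have hι : ∀ g a, ι (K₀.ρ g a) = P.ρ g (ι a) := fun g a => rfl
  have hιinj : Function.Injective ι := Subtype.val_injective
  let ζ : (Fin 3 → G) → K₀ := fun g => ⟨ζP g, hφζ g⟩
  have hιζ : ι ∘ ζ = ζP := rfl
  have hζV : IsInv V ζ := fun g s hs => Subtype.ext (hζPV g s hs)
  have hdζ : (inhomogeneousCochains.d K₀ 3).hom ζ = 0 := by
    have h1 : ι ∘ (inhomogeneousCochains.d K₀ 3).hom ζ = 0 := by
      rw [← d_push ι hι, hιζ]
      exact d_d_apply P 2 ct
    funext g
    apply hιinj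
    exact (congrFun h1 g).trans (map_zero ι).symm
  obtain ⟨b, ⟨V', hV', hbV'⟩, hdb⟩ := hsv ζ hdζ ⟨V, hV, hζV⟩
  -- the corrected cocycle
  let e : (Fin 2 → G) → P := ct - ι ∘ b
  have hde : (inhomogeneousCochains.d P 2).hom e = 0 := by
    show (inhomogeneousCochains.d P 2).hom (ct - ι ∘ b) = 0
    rw [map_sub, d_push ι hι, hdb, hιζ, sub_self]
  have hφe : φ ∘ e = toFin2 (c : G × G → N) := by
    rw [← hct]
    funext g
    show φ (ct g - ι (b g)) = φ (ct g)
    have hb0 : φ (ι (b g)) = 0 := LinearMap.mem_ker.1 (b g).2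
    rw [map_sub, hb0, sub_zero]
  obtain ⟨V'', hV'', hV''V, hV''V'⟩ := h𝒩.directed V hV V' hV'
  have heV'' : IsInv V'' e := (hctV.mono hV''V).sub ((hbV'.mono hV''V').comp ι)
  have hE : ofFin2 e ∈ L.Z2 P := by
    refine ⟨?_, V'', hV''.1, fun g g' s s' hs hs' => isLC₂_ofFin2 heV'' g g' s s' hs hs'⟩
    show (d₂₃ P).hom (ofFin2 e) = 0
    rw [d₂₃_ofFin2, hde, map_zero]
  refine ⟨L.H2π P ⟨ofFin2 e, hE⟩, ?_⟩
  rw [pushH2_mk]
  congr 1
  apply Subtype.ext
  show φ ∘ ofFin2 e = (c : G × G → N)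
  have : φ ∘ ofFin2 e = ofFin2 (φ ∘ e) := rfl
  rw [this, hφe, ofFin2_toFin2]

end Fermat.Agent.S55.K.H243
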