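import Fermat.Agent.S55.K.H243.Cochain
import Fermat.Agent.S55.T.CoresH572

/-!
# S55 / layer K (helper243): smooth coboundaries and the Sylow reduction

For a group `G` with a directed set `𝒩` of normal finite-index subgroups ("levels"):
* `IsSm 𝒩 f` : the cochain `f` is invariant under some level;
* `SCob 𝒩 A z` : `z = d b` for a smooth cochain `b`;
* `SV 𝒩 A n` : every smooth `(n+1)`-cocycle is a smooth coboundary (`Hⁿ⁺¹_sm(G, A) = 0`);
* `scob_of_res` (Sylow reduction): if `G' ≤ G` is open of index prime to `p` and the restriction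
  of a smooth cocycle `z` (coefficients over `ZMod p`) to `G'` is a smooth coboundary, then so
  is `z`.  Uses `T.ResIndexSpec` (corestriction) at a finite level.
-/

set_option autoImplicit false

open CategoryTheory groupCohomology

namespace Fermat.Agent.S55.K.H243

variable {k G : Type} [CommRing k] [Group G]

/-- A directed nonempty set of normal subgroups of finite index. -/
structure IsLevels (𝒩 : Set (Subgroup G)) : Prop where
  nonempty : 𝒩.Nonempty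
  normal : ∀ U ∈ 𝒩, U.Normal
  finiteIndex : ∀ U ∈ 𝒩, U.FiniteIndex
  directed : ∀ U ∈ 𝒩, ∀ V ∈ 𝒩, ∃ W ∈ 𝒩, W ≤ U ∧ W ≤ V

/-- The levels pulled back along a group homomorphism. -/
def pull {G₁ : Type} [Group G₁] (ι : G₁ →* G) (𝒩 : Set (Subgroup G)) : Set (Subgroup G₁) :=
  (fun U => U.comap ι) '' 𝒩

lemma mem_pull {G₁ : Type} [Group G₁] (ι : G₁ →* G) {𝒩 : Set (Subgroup G)} {U : Subgroup G}
    (hU : U ∈ 𝒩) : U.comap ι ∈ pull ι 𝒩 := ⟨U, hU, rfl⟩

theorem IsLevels.pull {𝒩 : Set (Subgroup G)} (h : IsLevels 𝒩) {G₁ : Type} [Group G₁]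
    (ι : G₁ →* G) : IsLevels (pull ι 𝒩) where
  nonempty := h.nonempty.image _
  normal := by
    rintro _ ⟨U, hU, rfl⟩
    have := h.normal U hU
    exact Subgroup.Normal.comap this ι
  finiteIndex := by
    rintro _ ⟨U, hU, rfl⟩
    have := h.normal U hU
    have hfi := h.finiteIndex U hU
    refine ⟨?_⟩
    rw [Subgroup.index_comap]
    intro h0
    have hdvd := Subgroup.relIndex_dvd_index_of_normal (H := U) (K := ι.range)
    rw [h0] at hdvd
    exact hfi.index_ne_zero (Nat.eq_zero_of_zero_dvd hdvd)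
  directed := by
    rintro _ ⟨U, hU, rfl⟩ _ ⟨V, hV, rfl⟩
    obtain ⟨W, hW, hWU, hWV⟩ := h.directed U hU V hV
    exact ⟨_, ⟨W, hW, rfl⟩, Subgroup.comap_mono hWU, Subgroup.comap_mono hWV⟩

/-- A smooth cochain: invariant under some level. -/
def IsSm (𝒩 : Set (Subgroup G)) {X : Type*} {n : ℕ} (f : (Fin n → G) → X) : Prop :=
  ∃ U ∈ 𝒩, IsInv U f

/-- A uniformly smooth representation: some level acts trivially. -/
def USm (𝒩 : Set (Subgroup G)) (A : Rep.{0} k G) : Prop := ∃ U ∈ 𝒩, TrivOn A U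

/-- `z` is the coboundary of a smooth cochain. -/
def SCob (𝒩 : Set (Subgroup G)) (A : Rep.{0} k G) {n : ℕ} (z : (Fin (n + 1) → G) → A) : Prop :=
  ∃ b : (Fin n → G) → A, IsSm 𝒩 b ∧ (inhomogeneousCochains.d A n).hom b = z

/-- Smooth vanishing in degree `n + 1`: every smooth cocycle is a smooth coboundary. -/
def SV (𝒩 : Set (Subgroup G)) (A : Rep.{0} k G) (n : ℕ) : Prop :=
  ∀ z : (Fin (n + 1) → G) → A, (inhomogeneousCochains.d A (n + 1)).hom z = 0 → IsSm 𝒩 z →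
    SCob 𝒩 A z

lemma IsLevels.exists_le₃ {𝒩 : Set (Subgroup G)} (h : IsLevels 𝒩) {U₁ U₂ U₃ : Subgroup G}
    (h₁ : U₁ ∈ 𝒩) (h₂ : U₂ ∈ 𝒩) (h₃ : U₃ ∈ 𝒩) : ∃ W ∈ 𝒩, W ≤ U₁ ∧ W ≤ U₂ ∧ W ≤ U₃ := by
  obtain ⟨W₁, hW₁, h11, h12⟩ := h.directed U₁ h₁ U₂ h₂
  obtain ⟨W, hW, h21, h22⟩ := h.directed W₁ hW₁ U₃ h₃
  exact ⟨W, hW, h21.trans h11, h21.trans h12, h22⟩

lemma IsLevels.exists_le₄ {𝒩 : Set (Subgroup G)} (h : IsLevels 𝒩) {U₁ U₂ U₃ U₄ : Subgroup G}
    (h₁ : U₁ ∈ 𝒩) (h₂ : U₂ ∈ 𝒩) (h₃ : U₃ ∈ 𝒩) (h₄ : U₄ ∈ 𝒩) :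
    ∃ W ∈ 𝒩, W ≤ U₁ ∧ W ≤ U₂ ∧ W ≤ U₃ ∧ W ≤ U₄ := by
  obtain ⟨W₁, hW₁, h11, h12, h13⟩ := h.exists_le₃ h₁ h₂ h₃
  obtain ⟨W, hW, h21, h22⟩ := h.directed W₁ hW₁ U₄ h₄
  exact ⟨W, hW, h21.trans h11, h21.trans h12, h21.trans h13, h22⟩

/-- In a `ZMod p`-module, an element killed by an integer prime to `p` is zero. -/
lemma eq_zero_of_nsmul_eq_zero (p : ℕ) [Fact p.Prime] {M : Type*} [AddCommGroup M]
    [Module (ZMod p) M] {m : ℕ} (hm : ¬ p ∣ m) {x : M} (hx : m • x = 0) : x = 0 := by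
  have h1 : ((m : ZMod p)) • x = 0 := by
    rw [Nat.cast_smul_eq_nsmul]; exact hx
  have h2 : (m : ZMod p) ≠ 0 := by
    rwa [Ne, ZMod.natCast_eq_zero_iff]
  exact (smul_eq_zero.1 h1).resolve_left h2

/-- **Sylow reduction.** -/
theorem scob_of_res (p : ℕ) [Fact p.Prime] {𝒩 : Set (Subgroup G)} (h𝒩 : IsLevels 𝒩)
    (A : Rep.{0} (ZMod p) G) (hA : USm 𝒩 A) (G' : Subgroup G) (hG' : ∃ U ∈ 𝒩, U ≤ G')
    (hidx : ¬ p ∣ G'.index) {n : ℕ} (z : (Fin (n + 1) → G) → A)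
    (hz : (inhomogeneousCochains.d A (n + 1)).hom z = 0) (hzs : IsSm 𝒩 z)
    (hres : SCob (pull G'.subtype 𝒩) (Rep.res G'.subtype A)
      (((cochainsMap G'.subtype (𝟙 (Rep.res G'.subtype A))).f (n + 1)).hom z)) :
    SCob 𝒩 A z := by
  obtain ⟨U₁, hU₁, hzU₁⟩ := hzs
  obtain ⟨U₂, hU₂, hAU₂⟩ := hA
  obtain ⟨U₃, hU₃, hU₃G'⟩ := hG'
  obtain ⟨b', ⟨_, ⟨V₁, hV₁, rfl⟩, hb'V₁⟩, hdb'⟩ := hres
  obtain ⟨V, hV, hVU₁, hVU₂, hVU₃, hVV₁⟩ := h𝒩.exists_le₄ hU₁ hU₂ hU₃ hV₁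
  haveI := h𝒩.normal V hV
  haveI := h𝒩.finiteIndex V hV
  have hAV : TrivOn A V := hAU₂.mono hVU₂
  haveI : Representation.IsTrivial (A.ρ.comp V.subtype) :=
    ⟨fun u => by ext a; exact hAV u.1 u.2 a⟩
  -- the finite level
  let π : G →* G ⧸ V := QuotientGroup.mk' V
  have hπ : Function.Surjective π := QuotientGroup.mk'_surjective V
  let B : Rep.{0} (ZMod p) (G ⧸ V) := A.ofQuotient V
  have hker : π.ker = V := QuotientGroup.ker_mk' V
  -- descend `z`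
  obtain ⟨z', hz'⟩ := exists_descent π hπ B (n := n + 1) z (by rw [hker]; exact hzU₁.mono hVU₁)
  have hdz' : (inhomogeneousCochains.d B (n + 1)).hom z' = 0 := by
    apply cochainsMap_res_injective π hπ B (n + 2)
    rw [← d_cochainsMap, hz', map_zero]
    exact hz
  -- the subgroup `H = G'/V`
  let H : Subgroup (G ⧸ V) := G'.map π
  let π' : G' →* H := π.subgroupMap G'
  have hπ' : Function.Surjective π' := π.subgroupMap_surjective G'
  let B' : Rep.{0} (ZMod p) H := Rep.res H.subtype B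
  have hker' : π'.ker = V.comap G'.subtype := by
    ext g
    have hg : G'.subtype g ∈ V ↔ π (G'.subtype g) = 1 := by
      rw [← MonoidHom.mem_ker, hker]
    rw [MonoidHom.mem_ker, Subgroup.mem_comap, hg]
    constructor
    · intro h
      exact congrArg Subtype.val h
    · intro h
      exact Subtype.ext h
  obtain ⟨b'', hb''⟩ := exists_descent π' hπ' B' (n := n) b'
    (by rw [hker']; exact hb'V₁.mono (Subgroup.comap_mono hVV₁))
  -- `res z' = d b''`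
  have hres' : (inhomogeneousCochains.d B' n).hom b'' =
      ((cochainsMap H.subtype (𝟙 (Rep.res H.subtype B))).f (n + 1)).hom z' := by
    apply cochainsMap_res_injective π' hπ' B' (n + 1)
    rw [← d_cochainsMap, hb'']
    refine Eq.trans hdb' ?_
    rw [← hz']
    rfl
  -- the class of `z'` restricts to zero on `H`
  let x : groupCohomology B (n + 1) := cls B z' hdz'
  have hdres : (inhomogeneousCochains.d B' (n + 1)).hom
      (((cochainsMap H.subtype (𝟙 (Rep.res H.subtype B))).f (n + 1)).hom z') = 0 := by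
    rw [d_cochainsMap, hdz', map_zero]
  have hx : (T.resMap B H (n + 1)).hom x = 0 := by
    show (groupCohomology.map H.subtype (𝟙 (Rep.res H.subtype B)) (n + 1)).hom (cls B z' hdz') = 0
    rw [map_cls H.subtype (𝟙 (Rep.res H.subtype B)) z' hdz' hdres, cls_eq_zero_iff]
    exact ⟨b'', hres'⟩
  have hidx' := T.H572.resIndex (ZMod p) (G ⧸ V) B H (n + 1) (Nat.succ_pos n) x hx
  have hHidx : ¬ p ∣ H.index := fun h =>
    hidx (h.trans (Subgroup.index_map_dvd G' hπ))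
  have hx0 : x = 0 := eq_zero_of_nsmul_eq_zero p hHidx hidx'
  obtain ⟨b₀, hb₀⟩ := (cls_eq_zero_iff B z' hdz').1 hx0
  refine ⟨((cochainsMap π (𝟙 (Rep.res π B))).f n).hom b₀, ⟨V, hV, ?_⟩, ?_⟩
  · intro g s hs
    rw [cochainsMap_res_apply, cochainsMap_res_apply]
    congr 1
    funext i
    have : π (s i) = 1 := by
      rw [← MonoidHom.mem_ker, hker]; exact hs i
    simp [this]
  · have h := d_cochainsMap π (𝟙 (Rep.res π B)) n b₀
    rw [hb₀, hz'] at h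
    exact h

end Fermat.Agent.S55.K.H243
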